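/-
Programme TW (S56), brick C4-LD1 (helper1): the LOCAL TATE PAIRING for an arbitrary
finite-dimensional discrete `N : Rep (ZMod p) Γ_q` (`Γ_q = Gal(ℚ̄_q/ℚ_q)`), PT vocabulary.

For `A := N.dualTwist χ_q` (`χ_q = cycloChar p ∘ r_q`), `P := ` the canonical resolution
`0 → Rel → ℤ[A] → A → 0` (`HpAt29.freeRes`), the pairing is
  `H¹(Γ_q; N) × H¹(Γ_q; A) → H²(Γ_q; ℚ̄_qˣ)[p]`,  `(x, y) ↦ pair11P (compare1 x) y`
(`KerIso7.compare1 : H¹(N) ≅ ℍ¹(K(P; ℚ̄_qˣ))`, `PairP4.pair11P` the evaluation pairing).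

* `cmp1`, `cmp1_bijective`; `pairCore`, `pairCore_apply`, `pairCore_right_kernel`;
* `locPairP : H1 𝓑 N →+ H1 𝓑 A →+ H²(ℚ̄_qˣ)[p]` (`LevelCoh28` vocabulary, `𝓑 = levelLoc q`),
  `locPairP_right_kernel`;
* `exists_tau`, `tauLoc`, `tauLoc_injective` : an injective invariant `H²(Γ_q; ℚ̄_qˣ)[p] →+ ZMod p`;
* `pairOf`, `pairOf_apply`, `pairOf_right` : the `ZMod p`-bilinear pairing `τ ∘ locPairP`.
-/
import Mathlib
import Fermat.Agent.TW.LEulDual74
import Fermat.Agent.PT.GLUE.LocalHypR11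
import Fermat.Agent.PT.GLUE.LocalSide11
import Fermat.Agent.PT.PRO.InvFund18
import Fermat.Agent.PT.PRO.PairP4
import Fermat.Agent.PT.PRO.KerIsoMain7
import Fermat.Agent.PT.PRO.KerIsoGal7
import Fermat.Agent.PT.PRO.LevelEquiv29

set_option autoImplicit false
set_option linter.unusedSectionVars false

open ExtCitation Function
open Fermat.Agent.PT.PRO
open Fermat.Agent.PT.PRO.HyperLevel25 Fermat.Agent.PT.PRO.HyperCompare25
open Fermat.Agent.PT.PRO.HyperRes25 Fermat.Agent.PT.PRO.IndRes20 Fermat.Agent.PT.PRO.Resolved4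
open Fermat.Agent.PT.PRO.Setup20 Fermat.Agent.PT.PRO.Objects20 Fermat.Agent.PT.PRO.KerIso7
open Fermat.Agent.PT.PRO.ExtPairing4 Fermat.Agent.PT.PRO.ExtPairingB4
open Fermat.Agent.PT.PRO.InvP4 Fermat.Agent.PT.PRO.PairP4
open Fermat.Agent.PT.PRO.KerIsoGal7 Fermat.Agent.PT.PRO.LevelEquiv29
open Fermat.Agent.PT.GLUE.Objects21 Fermat.Agent.PT.GLUE.LocalHypR11

namespace Fermat.Agent.TW.GWLocPair1.Core

variable {p : ℕ} [Fact p.Prime]

/-- `p` kills every `ZMod p`-module. -/
theorem nsmul_eq_zero1 {V : Type*} [AddCommGroup V] [Module (ZMod p) V] (v : V) : p • v = 0 := by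
  rw [← Nat.cast_smul_eq_nsmul (ZMod p), ZMod.natCast_self, zero_smul]

/-- Over `ℤ`, instance search finds `AddCommGroup.toIntModule` on `Rel ℤ A` before the submodule
structure `FreeRes29.instModuleRel` (for which the finiteness/freeness instances are stated);
this local instance restores the latter (they are definitionally equal). -/
noncomputable local instance (priority := 2000) relModInt {A : Type*} [AddCommGroup A] [Module ℤ A] :
    Module ℤ (FreeRes29.Rel ℤ A) := FreeRes29.instModuleRel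

variable (q : ℕ) [Fact q.Prime]

local notation "Γq" => (PadicAlgCl q ≃ₐ[ℚ_[q]] PadicAlgCl q)

variable (p) in
/-- The local mod `p` cyclotomic character. -/
noncomputable abbrev chiq : (PadicAlgCl q ≃ₐ[ℚ_[q]] PadicAlgCl q) →* (ZMod p)ˣ :=
  (cycloChar p).comp (localGaloisToGlobal q)

variable (N : Rep.{0} (ZMod p) (PadicAlgCl q ≃ₐ[ℚ_[q]] PadicAlgCl q))
  [FiniteDimensional (ZMod p) N]

/-- The canonical resolution of `A = N^∨(1)`. -/
noncomputable abbrev lRes :
    Res ℤ Γq (FreeRes29.Rel ℤ (N.dualTwist (chiq p q))) ((N.dualTwist (chiq p q)) →₀ ℤ)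
      (Module.Dual (ZMod p) N) :=
  HpAt29.freeRes (IntRep20.intRep (N.dualTwist (chiq p q)))

theorem lRes_disc0 (hA : LevelCoh28.IsDiscrete (levelLoc q).sets (N.dualTwist (chiq p q))) :
    IsDiscrete (levelLoc q).sets (lRes q N).ρ0 :=
  FreeRes29.isDiscrete_freeRep (basis (levelLoc q)) hA

/-- The local resolved module `P`. -/
noncomputable abbrev lP (hA : LevelCoh28.IsDiscrete (levelLoc q).sets (N.dualTwist (chiq p q))) :
    Resolved ℤ (levelLoc q).sets (FreeRes29.Rel ℤ (N.dualTwist (chiq p q)))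
      ((N.dualTwist (chiq p q)) →₀ ℤ) (Module.Dual (ZMod p) N) :=
  toResolved (lRes q N) (lRes_disc0 q N hA)

instance finite_dual1 : Finite (N.dualTwist (chiq p q)) :=
  Module.finite_of_finite (ZMod p)

/-- `compare1 : H¹(Γ_q; N) → ℍ¹(K(P; ℚ̄_qˣ))`. -/
noncomputable abbrev cmp1 (hN : LevelCoh28.IsDiscrete (levelLoc q).sets N)
    (hA : LevelCoh28.IsDiscrete (levelLoc q).sets (N.dualTwist (chiq p q))) :
    Hp1 (basis (levelLoc q)) (intRep intSurj_int N.ρ) (isDiscrete_intRep intSurj_int hN) →ₗ[ℤ]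
      ((lP q N hA).K (basis (levelLoc q)) (unitsLoc q).ρ (isDiscrete_unitsLoc q)).ℍ1
        (basis (levelLoc q)) :=
  compare1 intSurj_int (basis (levelLoc q)) (lP q N hA) N.ρ hN (chiq p q)
    (KerIsoMain7.hA_freeRes N (chiq p q)) (isDiscrete_unitsLoc q) (muLoc p q)

theorem cmp1_bijective (hN : LevelCoh28.IsDiscrete (levelLoc q).sets N)
    (hA : LevelCoh28.IsDiscrete (levelLoc q).sets (N.dualTwist (chiq p q))) :
    Bijective (cmp1 q N hN hA) :=
  compare1_bijective intSurj_int (basis (levelLoc q)) (lP q N hA) N.ρ hN (chiq p q)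
    (KerIsoMain7.hA_freeRes N (chiq p q)) (isDiscrete_unitsLoc q) (muLoc p q)
    (exists_zsmul_eq_unitsLoc p q)

/-- **The core local pairing** `H¹(Γ_q; N) × H¹(Γ_q; N^∨(1)) → H²(Γ_q; ℚ̄_qˣ)[p]`. -/
noncomputable def pairCore (hN : LevelCoh28.IsDiscrete (levelLoc q).sets N)
    (hA : LevelCoh28.IsDiscrete (levelLoc q).sets (N.dualTwist (chiq p q))) :
    Hp1 (basis (levelLoc q)) (intRep intSurj_int N.ρ) (isDiscrete_intRep intSurj_int hN) →+
      Hlev1 (basis (levelLoc q)) (lP q N hA).ρM (lP q N hA).discM →+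
        pTor p (Hlev2 (basis (levelLoc q)) (unitsLoc q).ρ (isDiscrete_unitsLoc q)) :=
  (pair11P (evalPairing (lP q N hA) (basis (levelLoc q)) (unitsLoc q).ρ (isDiscrete_unitsLoc q))
    (basis (levelLoc q)) (isDiscrete_unitsLoc q)
    (fun m : Module.Dual (ZMod p) N => nsmul_eq_zero1 m)).comp
    (cmp1 q N hN hA).toAddMonoidHom

theorem pairCore_apply (hN : LevelCoh28.IsDiscrete (levelLoc q).sets N)
    (hA : LevelCoh28.IsDiscrete (levelLoc q).sets (N.dualTwist (chiq p q)))
    (x : Hp1 (basis (levelLoc q)) (intRep intSurj_int N.ρ) (isDiscrete_intRep intSurj_int hN))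
    (y : Hlev1 (basis (levelLoc q)) (lP q N hA).ρM (lP q N hA).discM) :
    ((pairCore q N hN hA x y : pTor p (Hlev2 (basis (levelLoc q)) (unitsLoc q).ρ
        (isDiscrete_unitsLoc q))) : Hlev2 (basis (levelLoc q)) (unitsLoc q).ρ
        (isDiscrete_unitsLoc q)) =
      pair11 (evalPairing (lP q N hA) (basis (levelLoc q)) (unitsLoc q).ρ
        (isDiscrete_unitsLoc q)) (basis (levelLoc q)) (isDiscrete_unitsLoc q)
        (cmp1 q N hN hA x) y := rfl

/-- **Right kernel of the core pairing.** -/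
theorem pairCore_right_kernel (hN : LevelCoh28.IsDiscrete (levelLoc q).sets N)
    (hA : LevelCoh28.IsDiscrete (levelLoc q).sets (N.dualTwist (chiq p q)))
    (y : Hlev1 (basis (levelLoc q)) (lP q N hA).ρM (lP q N hA).discM)
    (h : ∀ x, pairCore q N hN hA x y = 0) : y = 0 := by
  have hs := (cmp1_bijective q N hN hA).2
  refine pair11_right_kernel_local q (lP q N hA) p
    (fun m : Module.Dual (ZMod p) N => nsmul_eq_zero1 m) y (hs.forall.2 fun x => ?_)
  exact (pair11P_eq_zero_iff _ _ _ (fun m : Module.Dual (ZMod p) N => nsmul_eq_zero1 m) _ _).1 (h x)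

/-! ### `LevelCoh28` vocabulary -/

/-- **The local pairing** `H¹(ℚ_q, N) × H¹(ℚ_q, N^∨(1)) → H²(ℚ_q, ℚ̄_qˣ)[p]`. -/
noncomputable def locPairP (hN : LevelCoh28.IsDiscrete (levelLoc q).sets N)
    (hA : LevelCoh28.IsDiscrete (levelLoc q).sets (N.dualTwist (chiq p q))) :
    LevelCoh28.H1 (levelLoc q) N →+ LevelCoh28.H1 (levelLoc q) (N.dualTwist (chiq p q)) →+
      pTor p (Hlev2 (basis (levelLoc q)) (unitsLoc q).ρ (isDiscrete_unitsLoc q)) :=
  ((pairCore q N hN hA).comp (h1IntEquiv (levelLoc q) N hN).toAddMonoidHom).compl₂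
    (h1IntEquiv (levelLoc q) (N.dualTwist (chiq p q)) hA).toAddMonoidHom

theorem locPairP_apply (hN : LevelCoh28.IsDiscrete (levelLoc q).sets N)
    (hA : LevelCoh28.IsDiscrete (levelLoc q).sets (N.dualTwist (chiq p q)))
    (x : LevelCoh28.H1 (levelLoc q) N)
    (y : LevelCoh28.H1 (levelLoc q) (N.dualTwist (chiq p q))) :
    locPairP q N hN hA x y =
      pairCore q N hN hA (h1IntEquiv (levelLoc q) N hN x)
        (h1IntEquiv (levelLoc q) (N.dualTwist (chiq p q)) hA y) := rfl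

/-- **Right kernel of the local pairing.** -/
theorem locPairP_right_kernel (hN : LevelCoh28.IsDiscrete (levelLoc q).sets N)
    (hA : LevelCoh28.IsDiscrete (levelLoc q).sets (N.dualTwist (chiq p q)))
    (y : LevelCoh28.H1 (levelLoc q) (N.dualTwist (chiq p q)))
    (h : ∀ x, locPairP q N hN hA x y = 0) : y = 0 := by
  have hs := (h1IntEquiv (levelLoc q) N hN).surjective
  have h1 : h1IntEquiv (levelLoc q) (N.dualTwist (chiq p q)) hA y = 0 :=
    pairCore_right_kernel q N hN hA _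
      (hs.forall.2 fun x => (locPairP_apply q N hN hA x y).symm.trans (h x))
  exact (h1IntEquiv (levelLoc q) (N.dualTwist (chiq p q)) hA).injective
    (h1.trans (map_zero _).symm)

/-! ### The invariant -/

variable (p) in
/-- An injective invariant on `H²(Γ_q; ℚ̄_qˣ)[p]` exists. -/
theorem exists_tau :
    ∃ τ : pTor p (Hlev2 (basis (levelLoc q)) (unitsLoc q).ρ (isDiscrete_unitsLoc q)) →+ ZMod p,
      Injective τ :=
  InvFund18.exists_inv_of_isFundClass (unitsLoc q).ρ (basis (levelLoc q)) (isDiscrete_unitsLoc q)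
    (fun _ hV _ => Fermat.Agent.PT.GLUE.LocalSide11.exists_isFundClass_of_mem_levelLoc q hV p)

variable (p) in
/-- A chosen injective invariant `H²(Γ_q; ℚ̄_qˣ)[p] →+ ZMod p`. -/
noncomputable def tauLoc :
    pTor p (Hlev2 (basis (levelLoc q)) (unitsLoc q).ρ (isDiscrete_unitsLoc q)) →+ ZMod p :=
  Classical.choose (exists_tau p q)

theorem tauLoc_injective : Injective (tauLoc p q) := Classical.choose_spec (exists_tau p q)

/-! ### The `ZMod p`-bilinear pairing -/

/-- The `ZMod p`-bilinear pairing `τ ∘ locPairP`. -/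
noncomputable def pairOf (hN : LevelCoh28.IsDiscrete (levelLoc q).sets N)
    (hA : LevelCoh28.IsDiscrete (levelLoc q).sets (N.dualTwist (chiq p q))) :
    LevelCoh28.H1 (levelLoc q) N →ₗ[ZMod p]
      LevelCoh28.H1 (levelLoc q) (N.dualTwist (chiq p q)) →ₗ[ZMod p] ZMod p :=
  AddMonoidHom.toZModLinearMap p
    ((AddMonoidHom.toZModLinearMapEquiv p).toAddMonoidHom.comp
      ((AddMonoidHom.compHom (tauLoc p q)).comp (locPairP q N hN hA)))

theorem pairOf_apply (hN : LevelCoh28.IsDiscrete (levelLoc q).sets N)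
    (hA : LevelCoh28.IsDiscrete (levelLoc q).sets (N.dualTwist (chiq p q)))
    (x : LevelCoh28.H1 (levelLoc q) N)
    (y : LevelCoh28.H1 (levelLoc q) (N.dualTwist (chiq p q))) :
    pairOf q N hN hA x y = tauLoc p q (locPairP q N hN hA x y) := rfl

theorem pairOf_eq_zero_iff (hN : LevelCoh28.IsDiscrete (levelLoc q).sets N)
    (hA : LevelCoh28.IsDiscrete (levelLoc q).sets (N.dualTwist (chiq p q)))
    (x : LevelCoh28.H1 (levelLoc q) N)
    (y : LevelCoh28.H1 (levelLoc q) (N.dualTwist (chiq p q))) :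
    pairOf q N hN hA x y = 0 ↔ locPairP q N hN hA x y = 0 := by
  constructor
  · intro h
    exact tauLoc_injective q
      (((pairOf_apply q N hN hA x y).symm.trans h).trans (map_zero (tauLoc p q)).symm)
  · intro h
    exact (pairOf_apply q N hN hA x y).trans
      ((congrArg (tauLoc p q) h).trans (map_zero (tauLoc p q)))

/-- **Right kernel of the `ZMod p`-valued pairing.** -/
theorem pairOf_right (hN : LevelCoh28.IsDiscrete (levelLoc q).sets N)
    (hA : LevelCoh28.IsDiscrete (levelLoc q).sets (N.dualTwist (chiq p q)))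
    (y : LevelCoh28.H1 (levelLoc q) (N.dualTwist (chiq p q)))
    (h : ∀ x, pairOf q N hN hA x y = 0) : y = 0 :=
  locPairP_right_kernel q N hN hA y (fun x => (pairOf_eq_zero_iff q N hN hA x y).1 (h x))

end Fermat.Agent.TW.GWLocPair1.Core
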