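/-
Programme TW (S56), brick C4-LD1 (helper1): NATURALITY of the local Tate pairing of
`GWLocPair1/Core` in the module: for an equivariant `φ : X → Y` of finite-dimensional discrete
`Γ_q`-modules, with transpose `φ^* = dualTwistMap φ χ_q : Y^* → X^*`,

  `⟨φ_* x, y⟩_Y = ⟨x, (φ^*)_* y⟩_X`   for `x ∈ H¹(X)`, `y ∈ H¹(Y^*)`.

Ingredients: functoriality of the canonical resolution `ℤ[A] → A` (`resHom`), the naturality
`ExtPairingB4.pair11_natural` of the evaluation pairing, and the naturality of the comparison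
`KerIso7.compare1` in the module (`cmp1_natural`, via `incl1_natural_same`).
-/
import Mathlib
import Fermat.Agent.TW.GWLocPair1.Core

set_option autoImplicit false
set_option linter.unusedSectionVars false

open ExtCitation Function
open Fermat.Agent.PT.PRO
open Fermat.Agent.PT.PRO.HyperLevel25 Fermat.Agent.PT.PRO.HyperCompare25
open Fermat.Agent.PT.PRO.HyperRes25 Fermat.Agent.PT.PRO.IndRes20 Fermat.Agent.PT.PRO.Resolved4
open Fermat.Agent.PT.PRO.Setup20 Fermat.Agent.PT.PRO.Objects20 Fermat.Agent.PT.PRO.KerIso7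
open Fermat.Agent.PT.PRO.ExtPairing4 Fermat.Agent.PT.PRO.ExtPairingB4
open Fermat.Agent.PT.PRO.InvP4 Fermat.Agent.PT.PRO.PairP4
open Fermat.Agent.PT.PRO.KerIsoGal7 Fermat.Agent.PT.PRO.LevelEquiv29
open Fermat.Agent.PT.GLUE.Objects21 Fermat.Agent.PT.GLUE.LocalHypR11
open Fermat.Agent.TW.Tate62.ChiAdditive
open Fermat.Agent.TW.GWLocPair1.Core

namespace Fermat.Agent.TW.GWLocPair1.Natural

/-! ### Generic lemmas -/

section InclNatSame

variable {k G : Type*} [CommRing k] [Group G] {𝒰 : Set (Subgroup G)}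
variable {N N' Y0 Y1 Y0' Y1' : Type*} [AddCommGroup N] [Module k N] [AddCommGroup N'] [Module k N']
  [AddCommGroup Y0] [Module k Y0] [AddCommGroup Y1] [Module k Y1]
  [AddCommGroup Y0'] [Module k Y0'] [AddCommGroup Y1'] [Module k Y1']
variable {Y : Cx k 𝒰 Y0 Y1} {Y' : Cx k 𝒰 Y0' Y1'} (a : Cx.Hom Y Y') (h𝒰 : IsLevelBasis 𝒰)
  {ρN : Representation k G N} (hN : IsDiscrete 𝒰 ρN) (ι0 : N →ₗ[k] Y0)
  (hι : ∀ g n, ι0 (ρN g n) = Y.ρ0 g (ι0 n)) (hfι : ∀ n, Y.f (ι0 n) = 0)
  {ρN' : Representation k G N'} (hN' : IsDiscrete 𝒰 ρN') (ι0' : N' →ₗ[k] Y0')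
  (hι' : ∀ g n, ι0' (ρN' g n) = Y'.ρ0 g (ι0' n)) (hfι' : ∀ n, Y'.f (ι0' n) = 0)
  (ν : N →ₗ[k] N') (hν : ∀ g n, ν (ρN g n) = ρN' g (ν n))
  (hνι : ∀ n, ι0' (ν n) = a.φ0 (ι0 n))

include hνι in
/-- Naturality of `incl1` over a fixed group. -/
theorem incl1_natural_same (x : Hp1 h𝒰 ρN hN) :
    incl1 Y' h𝒰 hN' ι0' hι' hfι' ((lvlHom h𝒰 hN hN' ν hν).mapH1 x) =
      a.mapℍ1 h𝒰 (incl1 Y h𝒰 hN ι0 hι hfι x) := by
  obtain ⟨z, rfl⟩ := (plainCpx h𝒰 ρN hN).π1_surjective x
  show (Y'.tot h𝒰).π1 _ = (Y'.tot h𝒰).π1 _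
  congr 1
  apply Subtype.ext; apply Subtype.ext
  show ((⇑ι0' ∘ (⇑ν ∘ z.1.1), (0 : Y1')) : (G → Y0') × Y1') = a.map1 (⇑ι0 ∘ z.1.1, 0)
  rw [Cx.Hom.map1_apply]
  refine Prod.ext ?_ (map_zero _).symm
  funext g
  exact hνι _

end InclNatSame

section LvlId

variable {k G : Type*} [CommRing k] [Group G] {𝒰 : Set (Subgroup G)}
variable {C : Type*} [AddCommGroup C] [Module k C] (h𝒰 : IsLevelBasis 𝒰)
  {ρC : Representation k G C} (hC : IsDiscrete 𝒰 ρC)

/-- The identity induces the identity on `H²_lev`. -/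
theorem lvlHom_id_mapH2 (h : ∀ g c, (LinearMap.id : C →ₗ[k] C) (ρC g c) = ρC g (LinearMap.id c))
    (z : Hlev2 h𝒰 ρC hC) : (lvlHom h𝒰 hC hC LinearMap.id h).mapH2 z = z := by
  obtain ⟨w, rfl⟩ := (lvl h𝒰 ρC hC).π2_surjective z
  rw [Cpx.Hom.mapH2_π2]
  congr 1

end LvlId

section FreeHom

open FreeRes29

variable {k : Type*} [CommRing k] {G : Type*} [Group G]
variable {A B : Type*} [AddCommGroup A] [Module k A] [AddCommGroup B] [Module k B]
variable (f : A →ₗ[k] B)

theorem aug_lmapDomain (x : A →₀ k) :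
    aug k B (Finsupp.lmapDomain k k f x) = f (aug k A x) := by
  induction x using Finsupp.induction_linear with
  | zero => simp
  | add x y hx hy => rw [map_add, map_add, hx, hy, map_add, map_add]
  | single a c =>
    rw [Finsupp.lmapDomain_apply, Finsupp.mapDomain_single, aug_single, aug_single, map_smul]

theorem lmapDomain_freeRep (ρA : Representation k G A) (ρB : Representation k G B)
    (hf : ∀ g a, f (ρA g a) = ρB g (f a)) (g : G) (x : A →₀ k) :
    Finsupp.lmapDomain k k f (freeRep ρA g x) = freeRep ρB g (Finsupp.lmapDomain k k f x) := by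
  induction x using Finsupp.induction_linear with
  | zero => simp
  | add x y hx hy => rw [map_add, map_add, hx, hy, map_add, map_add]
  | single a c =>
    rw [freeRep_single, Finsupp.lmapDomain_apply, Finsupp.lmapDomain_apply,
      Finsupp.mapDomain_single, Finsupp.mapDomain_single, freeRep_single, hf]

theorem lmapDomain_mem_relSub {x : A →₀ k} (hx : x ∈ relSub k A) :
    Finsupp.lmapDomain k k f x ∈ relSub k B := by
  rw [mem_relSub_iff] at hx ⊢
  rw [aug_lmapDomain, hx, map_zero]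

/-- The map induced on the modules of relations. -/
noncomputable def relMap : FreeRes29.Rel k A →ₗ[k] FreeRes29.Rel k B :=
  (Finsupp.lmapDomain k k f).restrict (p := relSub k A) (q := relSub k B)
    (fun _ hx => lmapDomain_mem_relSub f hx)

theorem relIncl_relMap (x : FreeRes29.Rel k A) :
    relIncl k B (relMap f x) = Finsupp.lmapDomain k k f (relIncl k A x) := rfl

theorem relMap_relRep (ρA : Representation k G A) (ρB : Representation k G B)
    (hf : ∀ g a, f (ρA g a) = ρB g (f a)) (g : G) (x : FreeRes29.Rel k A) :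
    relMap f (relRep ρA g x) = relRep ρB g (relMap f x) := by
  apply relIncl_injective
  rw [relIncl_relMap, relIncl_relRep, relIncl_relRep, relIncl_relMap]
  exact lmapDomain_freeRep f ρA ρB hf g _

end FreeHom

/-! ### The local situation -/

/-- See `GWLocPair1.Core.relModInt`. -/
noncomputable local instance (priority := 2000) relModInt' {A : Type*} [AddCommGroup A]
    [Module ℤ A] : Module ℤ (FreeRes29.Rel ℤ A) := FreeRes29.instModuleRel

variable {p : ℕ} [Fact p.Prime] (q : ℕ) [Fact q.Prime]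

local notation "Γq" => (PadicAlgCl q ≃ₐ[ℚ_[q]] PadicAlgCl q)

variable {X Y : Rep.{0} (ZMod p) (PadicAlgCl q ≃ₐ[ℚ_[q]] PadicAlgCl q)}
  [FiniteDimensional (ZMod p) X] [FiniteDimensional (ZMod p) Y]
  (φ : X →ₗ[ZMod p] Y) (hφ : ∀ g a, φ (X.ρ g a) = Y.ρ g (φ a))
  (hX : LevelCoh28.IsDiscrete (levelLoc q).sets X)
  (hY : LevelCoh28.IsDiscrete (levelLoc q).sets Y)
  (hAX : LevelCoh28.IsDiscrete (levelLoc q).sets (X.dualTwist (chiq p q)))
  (hAY : LevelCoh28.IsDiscrete (levelLoc q).sets (Y.dualTwist (chiq p q)))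

/-- The transpose, as a `ℤ`-linear map. -/
noncomputable def fZ : (Y.dualTwist (chiq p q)) →ₗ[ℤ] (X.dualTwist (chiq p q)) :=
  mkLin intSurj_int (dualTwistMap φ (chiq p q)).toAddMonoidHom

theorem fZ_apply (a : Y.dualTwist (chiq p q)) : fZ q φ a = dualTwistMap φ (chiq p q) a := rfl

include hφ in
theorem fZ_equivariant (g : Γq) (a : Y.dualTwist (chiq p q)) :
    fZ q φ (IntRep20.intRep (Y.dualTwist (chiq p q)) g a) =
      IntRep20.intRep (X.dualTwist (chiq p q)) g (fZ q φ a) :=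
  dualTwistMap_equivariant φ hφ (chiq p q) g a

/-- `φ` as a `ℤ`-linear map. -/
noncomputable def φZ : X →ₗ[ℤ] Y := mkLin intSurj_int φ.toAddMonoidHom

theorem φZ_apply (x : X) : φZ q φ x = φ x := rfl

/-- **Functoriality of the canonical resolution**: `P_Y → P_X` over `φ^* : Y^* → X^*`. -/
noncomputable def resHom : Resolved.Hom (lP q Y hAY) (lP q X hAX) where
  φ1 := relMap (fZ q φ)
  φ0 := Finsupp.lmapDomain ℤ ℤ (fZ q φ)
  φM := fZ q φ
  comm1 g x := relMap_relRep (fZ q φ) _ _ (fZ_equivariant q φ hφ) g x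
  comm0 g x := lmapDomain_freeRep (fZ q φ) _ _ (fZ_equivariant q φ hφ) g x
  commι x := rfl
  commπ x := (aug_lmapDomain (fZ q φ) x).symm

/-- The morphism of pairing data over `resHom`. -/
noncomputable def pairingHom :
    PairingHom
      (evalPairing (lP q X hAX) (basis (levelLoc q)) (unitsLoc q).ρ (isDiscrete_unitsLoc q))
      (evalPairing (lP q Y hAY) (basis (levelLoc q)) (unitsLoc q).ρ (isDiscrete_unitsLoc q)) where
  a := (resHom q φ hφ hAX hAY).K (basis (levelLoc q)) (unitsLoc q).ρ (isDiscrete_unitsLoc q)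
  b := resHom q φ hφ hAX hAY
  γ := LinearMap.id
  hγ _ _ := rfl
  h0 _ _ := rfl
  h1 _ _ := rfl

include hφ in
/-- **Naturality of the comparison `H¹(N) ≅ ℍ¹(K(P_N; ℚ̄_qˣ))` in the module.** -/
theorem cmp1_natural
    (x : Hp1 (basis (levelLoc q)) (intRep intSurj_int X.ρ) (isDiscrete_intRep intSurj_int hX)) :
    cmp1 q Y hY hAY
        ((lvlHom (basis (levelLoc q)) (isDiscrete_intRep intSurj_int hX)
          (isDiscrete_intRep intSurj_int hY) (φZ q φ) (fun g a => hφ g a)).mapH1 x) =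
      ((resHom q φ hφ hAX hAY).K (basis (levelLoc q)) (unitsLoc q).ρ
        (isDiscrete_unitsLoc q)).mapℍ1 (basis (levelLoc q)) (cmp1 q X hX hAX x) :=
  incl1_natural_same
    ((resHom q φ hφ hAX hAY).K (basis (levelLoc q)) (unitsLoc q).ρ (isDiscrete_unitsLoc q))
    (basis (levelLoc q)) _ _ _ _ _ _ _ _ (φZ q φ) (fun g a => hφ g a)
    (fun n => by
      apply LinearMap.ext
      intro y0
      show (muLoc p q).j ((lP q Y hAY).π y0 (φ n)) =
        (muLoc p q).j ((lP q X hAX).π ((resHom q φ hφ hAX hAY).φ0 y0) n)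
      rw [← (resHom q φ hφ hAX hAY).commπ]
      rfl) x

include hφ in
/-- **Naturality of the core pairing.** -/
theorem pairCore_natural
    (x : Hp1 (basis (levelLoc q)) (intRep intSurj_int X.ρ) (isDiscrete_intRep intSurj_int hX))
    (y : Hlev1 (basis (levelLoc q)) (lP q Y hAY).ρM (lP q Y hAY).discM) :
    pairCore q Y hY hAY
        ((lvlHom (basis (levelLoc q)) (isDiscrete_intRep intSurj_int hX)
          (isDiscrete_intRep intSurj_int hY) (φZ q φ) (fun g a => hφ g a)).mapH1 x) y =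
      pairCore q X hX hAX x
        ((lvlHom (basis (levelLoc q)) (lP q Y hAY).discM (lP q X hAX).discM
          (resHom q φ hφ hAX hAY).φM (resHom q φ hφ hAX hAY).commM).mapH1 y) := by
  apply Subtype.ext
  have e1 := pairCore_apply q Y hY hAY
    ((lvlHom (basis (levelLoc q)) (isDiscrete_intRep intSurj_int hX)
      (isDiscrete_intRep intSurj_int hY) (φZ q φ) (fun g a => hφ g a)).mapH1 x) y
  have e2 := congrArg
    (fun ξ => pair11 (evalPairing (lP q Y hAY) (basis (levelLoc q)) (unitsLoc q).ρ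
      (isDiscrete_unitsLoc q)) (basis (levelLoc q)) (isDiscrete_unitsLoc q) ξ y)
    (cmp1_natural q φ hφ hX hY hAX hAY x)
  have e3 := pair11_natural (basis (levelLoc q)) (isDiscrete_unitsLoc q) (isDiscrete_unitsLoc q)
    (pairingHom q φ hφ hAX hAY) (cmp1 q X hX hAX x) y
  have e4 := lvlHom_id_mapH2 (basis (levelLoc q)) (isDiscrete_unitsLoc q)
    (pairingHom q φ hφ hAX hAY).hγ
    (pair11 (evalPairing (lP q X hAX) (basis (levelLoc q)) (unitsLoc q).ρ
      (isDiscrete_unitsLoc q)) (basis (levelLoc q)) (isDiscrete_unitsLoc q) (cmp1 q X hX hAX x)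
      ((lvlHom (basis (levelLoc q)) (lP q Y hAY).discM (lP q X hAX).discM
        (resHom q φ hφ hAX hAY).φM (resHom q φ hφ hAX hAY).commM).mapH1 y))
  have e5 := pairCore_apply q X hX hAX x
    ((lvlHom (basis (levelLoc q)) (lP q Y hAY).discM (lP q X hAX).discM
      (resHom q φ hφ hAX hAY).φM (resHom q φ hφ hAX hAY).commM).mapH1 y)
  exact e1.trans (e2.trans (e3.trans (e4.trans e5.symm)))

include hφ in
/-- **Naturality of the local pairing** (`LevelCoh28` vocabulary). -/
theorem locPairP_natural (x : LevelCoh28.H1 (levelLoc q) X)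
    (y : LevelCoh28.H1 (levelLoc q) (Y.dualTwist (chiq p q))) :
    locPairP q Y hY hAY (LevelCoh28.mapH1 (𝓑 := levelLoc q) φ hφ x) y =
      locPairP q X hX hAX x
        (LevelCoh28.mapH1 (𝓑 := levelLoc q) (dualTwistMap φ (chiq p q))
          (dualTwistMap_equivariant φ hφ (chiq p q)) y) := by
  have e1 := locPairP_apply q Y hY hAY (LevelCoh28.mapH1 (𝓑 := levelLoc q) φ hφ x) y
  have e2 := h1IntEquiv_mapH1 (levelLoc q) hX hY φ hφ (φZ q φ) (fun g a => hφ g a)
    (fun _ => rfl) x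
  have e3 := h1IntEquiv_mapH1 (levelLoc q) hAY hAX (dualTwistMap φ (chiq p q))
    (dualTwistMap_equivariant φ hφ (chiq p q)) (fZ q φ) (fZ_equivariant q φ hφ)
    (fun _ => rfl) y
  have e4 := pairCore_natural q φ hφ hX hY hAX hAY (h1IntEquiv (levelLoc q) X hX x)
    (h1IntEquiv (levelLoc q) (Y.dualTwist (chiq p q)) hAY y)
  have e5 := locPairP_apply q X hX hAX x
    (LevelCoh28.mapH1 (𝓑 := levelLoc q) (dualTwistMap φ (chiq p q))
      (dualTwistMap_equivariant φ hφ (chiq p q)) y)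
  have e6 := congrArg (fun t => pairCore q Y hY hAY t
    (h1IntEquiv (levelLoc q) (Y.dualTwist (chiq p q)) hAY y)) e2
  have e7 := congrArg (fun t => pairCore q X hX hAX (h1IntEquiv (levelLoc q) X hX x) t) e3
  exact e1.trans (e6.trans (e4.trans (e7.symm.trans e5.symm)))

include hφ in
/-- **Naturality of the `ZMod p`-valued pairing.** -/
theorem pairOf_natural (x : LevelCoh28.H1 (levelLoc q) X)
    (y : LevelCoh28.H1 (levelLoc q) (Y.dualTwist (chiq p q))) :
    pairOf q Y hY hAY (LevelCoh28.mapH1 (𝓑 := levelLoc q) φ hφ x) y =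
      pairOf q X hX hAX x
        (LevelCoh28.mapH1 (𝓑 := levelLoc q) (dualTwistMap φ (chiq p q))
          (dualTwistMap_equivariant φ hφ (chiq p q)) y) := by
  exact (pairOf_apply q Y hY hAY _ y).trans
    ((congrArg (tauLoc p q) (locPairP_natural q φ hφ hX hY hAX hAY x y)).trans
      (pairOf_apply q X hX hAX x _).symm)

end Fermat.Agent.TW.GWLocPair1.Natural
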