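/-
Programme TW (S56), brick C4-LD1 (helper1): the `LEulDual74.PairData` of the local Galois group.

* `pairTot q X` : the local Tate pairing `H¹(X) × H¹(X^*) → ZMod p` of `GWLocPair1/Core`, made total
  in `X` (junk value `0` unless `X` is finite-dimensional and discrete);
* `pairDataCore q hFin1 : PairData (levelLoc q) (chiq p q)` (PT vocabulary, `q : ℕ`);
* `pairDataOf q 𝓑 h𝓑 hFin1 : PairData 𝓑 (chiq p q)` for any `𝓑 = levelLoc q`;
* `pairData q hFin1 : PairData (pullBasis (primeLocalToGlobal q)) ((cycloChar p).comp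
  (primeLocalToGlobal q))` (`q : Nat.Primes`), the input `P` of `LEulAsmLoc64.localEuler_of`.

The only hypothesis is `hFin1` (finiteness of `H¹` of finite-dimensional discrete modules, e.g.
`LEulAsm64.finH1 hBase`), used for the LEFT kernel (by counting, `GWLocLeft5.Abstract`).
-/
import Mathlib
import Fermat.Agent.TW.GWLocPair1.Natural
import Fermat.Agent.TW.GWLocLeft5.Abstract
import Fermat.Agent.TW.GWLocLeft5.Local
import Fermat.Agent.PT.GLUE.BasisCompare13

set_option autoImplicit false
set_option linter.unusedSectionVars false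

open ExtCitation Function Module
open Fermat.Agent.PT.PRO Fermat.Agent.PT.PRO.LevelCoh28
open Fermat.Agent.PT.BR.LevelBridge13
open Fermat.Agent.PT.GLUE.Objects21
open Fermat.Agent.TW.Tate62.ChiAdditive Fermat.Agent.TW.LEulDual74
open Fermat.Agent.TW.GWLocLeft5.Abstract
open Fermat.Agent.TW.GWLocPair1.Core Fermat.Agent.TW.GWLocPair1.Natural

namespace Fermat.Agent.TW.GWLocPair1.PairData

variable {p : ℕ} [Fact p.Prime]

section Core

variable (q : ℕ) [Fact q.Prime]

local notation "Γq" => (PadicAlgCl q ≃ₐ[ℚ_[q]] PadicAlgCl q)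

/-- The local cyclotomic character is a level character of `levelLoc q`. -/
theorem isLevelChar_chiq : IsLevelChar (levelLoc q).sets (chiq p q) := by
  have h := Fermat.Agent.TW.GWLocLeft5.Local.isLevelChar_comp (p := p) (localGaloisToGlobal q)
  rw [Fermat.Agent.PT.GLUE.BasisCompare13.pullBasis_eq q] at h
  exact h

open Classical in
/-- **The local Tate pairing, total in `X`** (junk value `0` unless `X` is finite-dimensional and
discrete). -/
noncomputable def pairTot (X : Rep.{0} (ZMod p) Γq) :
    H1 (levelLoc q) X →ₗ[ZMod p] H1 (levelLoc q) (X.dualTwist (chiq p q)) →ₗ[ZMod p] ZMod p :=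
  if h : FiniteDimensional (ZMod p) X ∧ IsDiscrete (levelLoc q).sets X ∧
      IsDiscrete (levelLoc q).sets (X.dualTwist (chiq p q)) then
    @pairOf p _ q _ X h.1 h.2.1 h.2.2
  else 0

theorem pairTot_eq (X : Rep.{0} (ZMod p) Γq) [FiniteDimensional (ZMod p) X]
    (hX : IsDiscrete (levelLoc q).sets X)
    (hA : IsDiscrete (levelLoc q).sets (X.dualTwist (chiq p q))) :
    pairTot q X = pairOf q X hX hA := by
  unfold pairTot
  rw [dif_pos ⟨inferInstance, hX, hA⟩]

theorem pairTot_right (X : Rep.{0} (ZMod p) Γq) (hXfd : FiniteDimensional (ZMod p) X)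
    (hX : IsDiscrete (levelLoc q).sets X) (y : H1 (levelLoc q) (X.dualTwist (chiq p q)))
    (hy : ∀ x, pairTot q X x y = 0) : y = 0 := by
  have hA := isDiscrete_dualTwist (levelLoc q).isBasis (isLevelChar_chiq q) hX
  refine pairOf_right q X hX hA y (fun x => ?_)
  rw [← pairTot_eq q X hX hA]
  exact hy x

/-- **LD1 for `Γ_q`, PT vocabulary.** -/
noncomputable def pairDataCore
    (hFin1 : ∀ X : Rep.{0} (ZMod p) Γq, FiniteDimensional (ZMod p) X →
      IsDiscrete (levelLoc q).sets X → FiniteDimensional (ZMod p) (H1 (levelLoc q) X)) :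
    PairData (levelLoc q) (chiq p q) where
  pair := pairTot q
  left X hXfd hX := by
    have := hXfd
    have := hFin1 X hXfd hX
    exact (left_of_right (isLevelChar_chiq q) (pairTot q) (pairTot_right q) X hX).2.2
  right := pairTot_right q
  natural X Y φ hφ hXfd hX hsurj x y := by
    have := hXfd
    have hYfd : FiniteDimensional (ZMod p) Y := Module.Finite.of_surjective φ hsurj
    have hY := isDiscrete_of_surjective φ hφ hsurj hX
    have hAX := isDiscrete_dualTwist (levelLoc q).isBasis (isLevelChar_chiq q) hX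
    have hAY := isDiscrete_dualTwist (levelLoc q).isBasis (isLevelChar_chiq q) hY
    rw [pairTot_eq q Y hY hAY, pairTot_eq q X hX hAX]
    exact pairOf_natural q φ hφ hX hY hAX hAY x y

/-- **LD1 for `Γ_q`**, for any presentation `𝓑` of the level basis `levelLoc q`. -/
noncomputable def pairDataOf (𝓑 : LevelBasis Γq) (h𝓑 : 𝓑 = levelLoc q)
    (hFin1 : ∀ X : Rep.{0} (ZMod p) Γq, FiniteDimensional (ZMod p) X →
      IsDiscrete 𝓑.sets X → FiniteDimensional (ZMod p) (H1 𝓑 X)) :
    PairData 𝓑 (chiq p q) := by
  subst h𝓑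
  exact pairDataCore q hFin1

end Core

/-- **LD1 (brick C4-LD1)**: the natural perfect pairings `H¹(X) × H¹(X^*) → ZMod p` for the local
Galois group at `q`, in the vocabulary of `LEulAsmLoc64.localEuler_of`. -/
noncomputable def pairData (q : Nat.Primes)
    (hFin1 : ∀ X : Rep.{0} (ZMod p) (primeLocalGaloisGroup q), FiniteDimensional (ZMod p) X →
      IsDiscrete (pullBasis (primeLocalToGlobal q)).sets X →
      FiniteDimensional (ZMod p) (H1 (pullBasis (primeLocalToGlobal q)) X)) :
    PairData (pullBasis (primeLocalToGlobal q)) ((cycloChar p).comp (primeLocalToGlobal q)) :=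
  pairDataOf (q : ℕ) (pullBasis (primeLocalToGlobal q))
    (Fermat.Agent.PT.GLUE.BasisCompare13.pullBasis_prime_eq q) hFin1

end Fermat.Agent.TW.GWLocPair1.PairData
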